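import Fermat.Agent.ClassFieldTheory.Modulus

/-!
# The conductor

The sum of two moduli of an abelian extension is again one, so there is a least modulus; it is
divisible exactly by the ramified primes.
-/

set_option autoImplicit false
set_option linter.unusedSectionVars false
set_option linter.style.haveILetI false

noncomputable section

open NumberField IsDedekindDomain Finset
open FA.Hecke (IsRayElt isRayElt_one coprimeIdeals RayClassGroup rayClass rayClass_eq_iff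
  rayClass_surjective span_sup_congr ray_pow ray_mul)
open FA.Ext (primeIdeal)
open scoped Pointwise nonZeroDivisors Classical

namespace FA.RayFields

open FA.ArtinRec

variable {K : Type*} [Field K] [NumberField K]

theorem ne_bot_of_le {I J : Ideal (𝓞 K)} (hI : I ≠ ⊥) (h : I ≤ J) : J ≠ ⊥ :=
  fun h0 => hI (le_bot_iff.1 (h0 ▸ h))

/-- An element congruent to `x` modulo `𝔪`, to `1` modulo `𝔫`, and totally positive. -/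
theorem exists_ray_congr {𝔪 𝔫 : Ideal (𝓞 K)} (h𝔪 : 𝔪 ≠ ⊥) (h𝔫 : 𝔫 ≠ ⊥) {x : 𝓞 K}
    (hx : x - 1 ∈ 𝔪 ⊔ 𝔫) :
    ∃ y : 𝓞 K, IsRayElt 𝔫 y ∧ x - y ∈ 𝔪 := by
  obtain ⟨a, ha, b, hb, hab⟩ := Submodule.mem_sup.1 hx
  set y₀ := x - a with hy₀
  set c := Ideal.absNorm (𝔪 * 𝔫)
  have hc : 1 ≤ c := Nat.one_le_iff_ne_zero.2 fun h0 =>
    mul_ne_zero h𝔪 h𝔫 (Ideal.absNorm_eq_zero_iff.1 h0)
  have hcm : (c : 𝓞 K) * (1 + y₀ ^ 2) ∈ 𝔪 * 𝔫 :=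
    Ideal.mul_mem_right _ _ (Ideal.absNorm_mem (𝔪 * 𝔫))
  have key : ∀ t k : ℝ, 1 ≤ k → 0 < t + k * (1 + t ^ 2) := fun t k hk => by
    nlinarith [sq_nonneg (t + 1 / 2), mul_le_mul_of_nonneg_right hk (sq_nonneg t)]
  have hpos : ∀ φ : K →+* ℝ, 0 < φ ((y₀ + (c : 𝓞 K) * (1 + y₀ ^ 2) : 𝓞 K) : K) := fun φ => by
    push_cast
    rw [map_add, map_mul, map_natCast, map_add, map_one, map_pow]
    exact key _ _ (by exact_mod_cast hc)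
  set y₁ := y₀ + (c : 𝓞 K) * (1 + y₀ ^ 2) with hy₁
  have h1 : y₁ - 1 ∈ 𝔫 ∧ x - y₁ ∈ 𝔪 := by
    refine ⟨?_, ?_⟩
    · rw [hy₁, hy₀, show x - a + (c : 𝓞 K) * (1 + (x - a) ^ 2) - 1 =
        (x - 1 - a) + (c : 𝓞 K) * (1 + (x - a) ^ 2) by ring, ← hab, add_sub_cancel_left]
      exact 𝔫.add_mem hb (Ideal.mul_le_right hcm)
    · rw [hy₁, hy₀, show x - (x - a + (c : 𝓞 K) * (1 + (x - a) ^ 2)) =
        a - (c : 𝓞 K) * (1 + (x - a) ^ 2) by ring]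
      exact 𝔪.sub_mem ha (Ideal.mul_le_left hcm)
  by_cases hz : y₁ = 0
  · have hcmem := Ideal.absNorm_mem (𝔪 * 𝔫)
    refine ⟨y₁ + c, ⟨?_, ?_, fun φ => ?_⟩, ?_⟩
    · rw [hz, zero_add]
      exact Nat.cast_ne_zero.2 (by omega)
    · rw [show y₁ + (c : 𝓞 K) - 1 = (y₁ - 1) + c by ring]
      exact 𝔫.add_mem h1.1 (Ideal.mul_le_right hcmem)
    · rw [hz, zero_add]
      push_cast
      rw [map_natCast]
      exact_mod_cast hc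
    · rw [show x - (y₁ + (c : 𝓞 K)) = (x - y₁) - c by ring]
      exact 𝔪.sub_mem h1.2 (Ideal.mul_le_left hcmem)
  · exact ⟨y₁, ⟨hz, h1.1, hpos⟩, h1.2⟩

variable {E : Type*} [Field E] [NumberField E] [Algebra K E] [IsGalois K E]
  [IsMulCommutative (E ≃ₐ[K] E)]

/-- **The sum of two moduli is a modulus.** -/
theorem IsModulus.sup {𝔪 𝔫 : Ideal (𝓞 K)} (hm : IsModulus E 𝔪) (hn : IsModulus E 𝔫) :
    IsModulus E (𝔪 ⊔ 𝔫) := by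
  obtain ⟨h𝔪, ωm, hωm⟩ := hm
  obtain ⟨h𝔫, ωn, hωn⟩ := hn
  set 𝔡 := 𝔪 ⊔ 𝔫
  have h𝔡 : 𝔡 ≠ ⊥ := ne_bot_of_le h𝔪 le_sup_left
  set 𝔐 := 𝔪 * 𝔫
  have h𝔐 : 𝔐 ≠ ⊥ := mul_ne_zero h𝔪 h𝔫
  have hm' : 𝔐 ≤ 𝔪 := Ideal.mul_le_left
  have hn' : 𝔐 ≤ 𝔫 := Ideal.mul_le_right
  have hd' : 𝔐 ≤ 𝔡 := hm'.trans le_sup_left
  set π := rayMap h𝔐 h𝔡 hd'
  set ω := ωm.comp (rayMap h𝔐 h𝔪 hm')
  have heq : ω = ωn.comp (rayMap h𝔐 h𝔫 hn') := MonoidHom.ext fun γ => by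
    obtain ⟨v, hv, -, rfl⟩ := exists_prime_in_class_avoiding h𝔐 γ Set.finite_empty
    show ωm (rayMap h𝔐 h𝔪 hm' _) = ωn (rayMap h𝔐 h𝔫 hn' _)
    rw [rayMap_apply, rayMap_apply]
    exact ((hωm v _).2).trans ((hωn v _).2).symm
  -- the symbol only depends on the class modulo the sum
  have hker : π.ker ≤ ω.ker := fun γ hγ => by
    obtain ⟨I, rfl⟩ := rayClass_surjective h𝔐 γ
    rw [MonoidHom.mem_ker, rayMap_apply, ← map_one (rayClass h𝔡), rayClass_eq_iff] at hγ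
    obtain ⟨x, y, hx, hy, hxy⟩ := hγ
    have hxy' : Ideal.span {x} * I.1.1 = Ideal.span {y} := by
      rw [hxy]; simp [Ideal.one_eq_top]
    obtain ⟨z, rfl⟩ : x ∣ y := Ideal.span_singleton_le_span_singleton.1
      (hxy' ▸ Ideal.mul_le_left)
    rw [← Ideal.span_singleton_mul_span_singleton] at hxy'
    have hz : I.1.1 = Ideal.span {z} :=
      mul_left_cancel₀ (a := Ideal.span {x}) (by simpa using hx.1) hxy'
    have hz0 : z ≠ 0 := right_ne_zero_of_mul hy.1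
    have hzc : Ideal.span {z} ⊔ 𝔐 = ⊤ := hz ▸ I.2
    have hz1 : z - 1 ∈ 𝔡 := by
      rw [show z - 1 = (x * z - 1) - z * (x - 1) by ring]
      exact 𝔡.sub_mem hy.2.1 (𝔡.mul_mem_left _ hx.2.1)
    have hzpos : ∀ φ : K →+* ℝ, 0 < φ (z : K) := fun φ => by
      have h1 := hy.2.2 φ
      push_cast at h1
      rw [map_mul] at h1
      exact (mul_pos_iff_of_pos_left (hx.2.2 φ)).1 h1
    obtain ⟨w, hw, hzw⟩ := exists_ray_congr h𝔪 h𝔫 hz1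
    have hwm : Ideal.span {w} ⊔ 𝔪 = ⊤ := (span_sup_congr hzw).symm.trans
      (top_le_iff.1 (hzc.symm.le.trans (sup_le_sup_left hm' _)))
    have hwn : Ideal.span {w} ⊔ 𝔫 = ⊤ :=
      IsSemiRay.sup_eq_top (S := ∅) ⟨hw.1, hw.2.1, fun w hw => absurd hw id⟩
    have hwc : Ideal.span {w} ⊔ 𝔐 = ⊤ := coprime_iff_ordI.2 fun v hv =>
      (v.prime.dvd_or_dvd hv).elim (coprime_iff_ordI.1 hwm v) (coprime_iff_ordI.1 hwn v)
    let W : coprimeIdeals 𝔐 :=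
      ⟨⟨Ideal.span {w}, mem_nonZeroDivisors_iff_ne_zero.mpr (by simpa using hw.1)⟩, hwc⟩
    have hclass : rayMap h𝔐 h𝔪 hm' (rayClass h𝔐 I) = rayMap h𝔐 h𝔪 hm' (rayClass h𝔐 W) := by
      rw [rayMap_apply, rayMap_apply, rayClass_eq_iff]
      refine ⟨w ^ (2 * FA.Hecke.unitCount 𝔪), z * w ^ (2 * FA.Hecke.unitCount 𝔪 - 1),
        ray_pow h𝔪 hw.1 hwm,
        ray_mul h𝔪 hz0 hw.1 hwm hzw (fun φ => mul_pos (hzpos φ) (hw.2.2 φ)), ?_⟩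
      show Ideal.span {w ^ (2 * FA.Hecke.unitCount 𝔪)} * I.1.1 = _ * Ideal.span {w}
      have hpos := FA.Hecke.unitCount_pos h𝔪
      rw [hz, Ideal.span_singleton_mul_span_singleton, Ideal.span_singleton_mul_span_singleton,
        mul_assoc, ← pow_succ, Nat.sub_add_cancel (by omega), mul_comm]
    have hone : rayMap h𝔐 h𝔫 hn' (rayClass h𝔐 W) = 1 := by
      rw [rayMap_apply, ← map_one (rayClass h𝔫), rayClass_eq_iff]
      exact ⟨1, w, isRayElt_one, hw, by simp [W, Ideal.one_eq_top]⟩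
    rw [MonoidHom.mem_ker]
    show ωm _ = 1
    rw [hclass]
    show ω (rayClass h𝔐 W) = 1
    rw [heq, MonoidHom.comp_apply, hone, map_one]
  set ωd := π.liftOfSurjective (rayMap_surjective h𝔐 h𝔡 hd') ⟨ω, hker⟩
  have hωd : ∀ γ, ωd (π γ) = ω γ := MonoidHom.liftOfRightInverse_comp_apply π _ _ ⟨ω, hker⟩
  obtain ⟨𝔣, ⟨h𝔣, ωf, hωf⟩, hfr⟩ := exists_isModulus K E
  have hr : ∀ v : HeightOneSpectrum (𝓞 K), IsRam E v → 𝔡 ≤ v.asIdeal := fun v hv => by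
    refine sup_le (by_contra fun h => ?_) (by_contra fun h => ?_)
    · exact (hωm v ((sup_eq_top_iff_not_le v 𝔪).2 h)).1 hv
    · exact (hωn v ((sup_eq_top_iff_not_le v 𝔫).2 h)).1 hv
  refine ⟨h𝔡, ωd, fun v hv => ?_⟩
  have hvr : ¬ IsRam E v := fun h => (sup_eq_top_iff_not_le v 𝔡).1 hv (hr v h)
  refine ⟨hvr, ?_⟩
  set 𝔑 := 𝔡 * 𝔣
  have h𝔑 : 𝔑 ≠ ⊥ := mul_ne_zero h𝔡 h𝔣
  have hvN : v.asIdeal ⊔ 𝔑 = ⊤ := (sup_eq_top_iff_not_le v _).2 fun hle =>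
    (v.prime.dvd_or_dvd (Ideal.dvd_iff_le.2 hle)).elim
      (fun h => (sup_eq_top_iff_not_le v 𝔡).1 hv (Ideal.le_of_dvd h)) fun h => hvr (hfr v h)
  obtain ⟨u, hu, huB, hγ⟩ := exists_prime_in_class_avoiding h𝔑
    (rayClass h𝔑 ⟨primeIdeal v, hvN⟩) (Ideal.finite_factors h𝔐)
  have huM : u.asIdeal ⊔ 𝔐 = ⊤ :=
    (sup_eq_top_iff_not_le u _).2 fun h => huB (Ideal.dvd_iff_le.2 h)
  have h1 := congrArg (fun γ => ωf (rayMap h𝔑 h𝔣 Ideal.mul_le_right γ)) hγ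
  simp only [rayMap_apply] at h1
  replace h1 := ((hωf u _).2.symm.trans h1).trans (hωf v _).2
  have h2 := congrArg (fun γ => ωd (rayMap h𝔑 h𝔡 Ideal.mul_le_left γ)) hγ
  simp only [rayMap_apply] at h2
  rw [← h2, ← h1]
  have h3 := hωd (rayClass h𝔐 ⟨primeIdeal u, huM⟩)
  rw [show π (rayClass h𝔐 ⟨primeIdeal u, huM⟩) =
    rayClass h𝔡 ⟨primeIdeal u, coprimeIdeals_mono hd' huM⟩ from rayMap_apply _ _ _ _] at h3
  refine h3.trans ?_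
  show ωm (rayMap h𝔐 h𝔪 hm' _) = _
  rw [rayMap_apply]
  exact (hωm u _).2

variable (K E) in
/-- **The conductor exists.** -/
theorem exists_conductor :
    ∃ 𝔣 : Ideal (𝓞 K), (∀ 𝔪 : Ideal (𝓞 K), 𝔪 ≠ ⊥ → (IsModulus E 𝔪 ↔ 𝔣 ∣ 𝔪)) ∧ IsModulus E 𝔣 ∧
      ∀ v : HeightOneSpectrum (𝓞 K), v.asIdeal ∣ 𝔣 ↔ IsRam E v := by
  obtain ⟨𝔯, hr, hrr⟩ := exists_isModulus K E
  obtain ⟨𝔣, hf, hmax⟩ := wellFounded_gt.has_min {𝔪 : Ideal (𝓞 K) | IsModulus E 𝔪} ⟨𝔯, hr⟩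
  have hle : ∀ 𝔪, IsModulus E 𝔪 → 𝔪 ≤ 𝔣 := fun 𝔪 hm => by
    rcases eq_or_lt_of_le (le_sup_right : 𝔣 ≤ 𝔪 ⊔ 𝔣) with h | h
    · exact h ▸ le_sup_left
    · exact absurd h (hmax _ (hm.sup hf))
  refine ⟨𝔣, fun 𝔪 h0 => ⟨fun h => Ideal.dvd_iff_le.2 (hle 𝔪 h),
    fun h => hf.mono h0 (Ideal.le_of_dvd h)⟩, hf, fun v => ⟨fun h => hrr v ?_, hf.dvd_of_isRam⟩⟩
  exact h.trans (Ideal.dvd_iff_le.2 (hle 𝔯 hr))

end FA.RayFields

end
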