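import Fermat.Agent.ExistenceTheorem.Uniqueness

/-!
# Moduli of an abelian extension

A modulus of an abelian extension is one whose ray classes determine the Artin symbols; the moduli
are those whose ray class field contains the extension.
-/

set_option autoImplicit false
set_option linter.unusedSectionVars false
set_option linter.style.haveILetI false

noncomputable section

open NumberField IsDedekindDomain Finset
open FA.Hecke (coprimeIdeals RayClassGroup rayClass rayClass_surjective)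
open FA.Ext (primeIdeal)
open scoped Pointwise nonZeroDivisors Classical

namespace FA.RayFields

open FA.ArtinRec

variable {K E : Type*} [Field K] [NumberField K] [Field E] [NumberField E] [Algebra K E]
  [IsGalois K E]

variable (E) in
/-- Unramified outside `𝔪` with symbols depending only on the classes modulo `𝔪`. -/
def IsModulus (𝔪 : Ideal (𝓞 K)) : Prop :=
  ∃ (h𝔪 : 𝔪 ≠ ⊥) (ω : RayClassGroup 𝔪 →* (E ≃ₐ[K] E)),
    ∀ (v : HeightOneSpectrum (𝓞 K)) (hv : v.asIdeal ⊔ 𝔪 = ⊤),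
      ¬ IsRam E v ∧ ω (rayClass h𝔪 ⟨primeIdeal v, hv⟩) = artinAt E v

theorem IsModulus.ne_bot {𝔪 : Ideal (𝓞 K)} (h : IsModulus E 𝔪) : 𝔪 ≠ ⊥ := h.1

theorem IsModulus.not_isRam {𝔪 : Ideal (𝓞 K)} (h : IsModulus E 𝔪) {v : HeightOneSpectrum (𝓞 K)}
    (hv : v.asIdeal ⊔ 𝔪 = ⊤) : ¬ IsRam E v := by
  obtain ⟨h𝔪, ω, hω⟩ := h
  exact (hω v hv).1

theorem IsModulus.dvd_of_isRam {𝔪 : Ideal (𝓞 K)} (h : IsModulus E 𝔪)
    {v : HeightOneSpectrum (𝓞 K)} (hv : IsRam E v) : v.asIdeal ∣ 𝔪 :=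
  Ideal.dvd_iff_le.2 (by_contra fun hn => h.not_isRam ((sup_eq_top_iff_not_le v 𝔪).2 hn) hv)

/-- A multiple of a modulus is one. -/
theorem IsModulus.mono {𝔪 𝔐 : Ideal (𝓞 K)} (h : IsModulus E 𝔪) (h𝔐 : 𝔐 ≠ ⊥) (hle : 𝔐 ≤ 𝔪) :
    IsModulus E 𝔐 := by
  obtain ⟨h𝔪, ω, hω⟩ := h
  refine ⟨h𝔐, ω.comp (rayMap h𝔐 h𝔪 hle), fun v hv => ?_⟩
  rw [MonoidHom.comp_apply, rayMap_apply]
  exact hω v (top_le_iff.1 (hv.symm.le.trans (sup_le_sup_left hle _)))

variable [IsMulCommutative (E ≃ₐ[K] E)]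

theorem IsModulus.exists_classField {𝔪 : Ideal (𝓞 K)} (h : IsModulus E 𝔪) :
    ∃ H : Subgroup (RayClassGroup 𝔪), IsClassField E h.ne_bot Set.univ H := by
  obtain ⟨h𝔪, ω, hω⟩ := h
  let _ : CommMonoid (E ≃ₐ[K] E) :=
    { (inferInstance : Monoid (E ≃ₐ[K] E)) with mul_comm := mul_comm' }
  have hall : ω.comp (rayClass h𝔪) = (artinHom E).comp (coprimeIdeals 𝔪).subtype :=
    hom_ext_primes fun v hv => by
      show ω (rayClass h𝔪 ⟨primeIdeal v, hv⟩) = artinHom E (primeIdeal v)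
      rw [artinHom_prime, (hω v hv).2]
  refine ⟨ω.ker, fun v hv => (hω v hv).1, fun w hw => absurd (Set.mem_univ w) hw, ω, fun g => ?_,
    rfl, fun I => DFunLike.congr_fun hall I⟩
  obtain ⟨v, hv, hvm⟩ :=
    ((infinite_artinAt (L := E) g).sdiff (Ideal.finite_factors h𝔪)).nonempty
  have hvc : v.asIdeal ⊔ 𝔪 = ⊤ :=
    (sup_eq_top_iff_not_le v 𝔪).2 fun h => hvm (Ideal.dvd_iff_le.2 h)
  exact ⟨_, (hω v hvc).2.trans hv⟩

theorem isModulus_of_isClassField {𝔪 : Ideal (𝓞 K)} {h𝔪 : 𝔪 ≠ ⊥}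
    {S : Set (InfinitePlace K)} {H : Subgroup (RayClassGroup 𝔪)} (h : IsClassField E h𝔪 S H) :
    IsModulus E 𝔪 := by
  obtain ⟨ω, -, -, hω⟩ := h.artin
  exact ⟨h𝔪, ω, fun v hv => ⟨h.unram v hv, (hω _).trans (artinHom_prime v)⟩⟩

variable (K E) in
/-- There is a modulus divisible by the ramified primes only. -/
theorem exists_isModulus :
    ∃ 𝔪 : Ideal (𝓞 K), IsModulus E 𝔪 ∧ ∀ v : HeightOneSpectrum (𝓞 K), v.asIdeal ∣ 𝔪 → IsRam E v := by
  obtain ⟨𝔪, h𝔪, hiff, ω, -, -, hω⟩ := exists_artinRayHom (K := K) (L := E)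
  exact ⟨𝔪, ⟨h𝔪, ω, fun v hv => ⟨fun hr => (sup_eq_top_iff_not_le v 𝔪).1 hv
    (Ideal.le_of_dvd ((hiff v).2 hr)), (hω _).trans (artinHom_prime v)⟩⟩, fun v hv => (hiff v).1 hv⟩

section embed

variable {L : Type*} [Field L] [NumberField L] [Algebra K L] [IsGalois K L]
  [IsMulCommutative (L ≃ₐ[K] L)]

/-- A subextension has the moduli of the extension. -/
theorem IsModulus.of_algHom {𝔪 : Ideal (𝓞 K)} (h : IsModulus L 𝔪) (f : E →ₐ[K] L) :
    IsModulus E 𝔪 := by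
  letI : Algebra E L := f.toRingHom.toAlgebra
  haveI : IsScalarTower K E L := IsScalarTower.of_algebraMap_eq fun x => (f.commutes x).symm
  obtain ⟨h𝔪, ω, hω⟩ := h
  refine ⟨h𝔪, (AlgEquiv.restrictNormalHom E).comp ω, fun v hv => ?_⟩
  have hu : ¬ IsRam E v := fun hr => (hω v hv).1 (isRam_of_tower hr)
  obtain ⟨Q, hQ, hτ⟩ := artinAt_spec (L := L) v
  exact ⟨hu, by rw [MonoidHom.comp_apply, (hω v hv).2, restrict_frob (L := E) hu hQ hτ]⟩

/-- **The moduli are those whose ray class field contains the extension.** -/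
theorem isModulus_iff_algHom {𝔪 : Ideal (𝓞 K)} {h𝔪 : 𝔪 ≠ ⊥}
    (hL : IsClassField L h𝔪 Set.univ ⊥) : IsModulus E 𝔪 ↔ Nonempty (E →ₐ[K] L) := by
  refine ⟨fun h => ?_, fun ⟨f⟩ => (isModulus_of_isClassField hL).of_algHom f⟩
  obtain ⟨_, ω, hω⟩ := h
  refine hL.exists_algHom fun v hv hmem => ?_
  rw [← (hω v hv).2, Subgroup.mem_bot.1 hmem, map_one]

/-- **The class fields are ordered against their subgroups.** -/
theorem nonempty_algHom_iff {𝔪 : Ideal (𝓞 K)} {h𝔪 : 𝔪 ≠ ⊥} {S S' : Set (InfinitePlace K)}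
    {H H' : Subgroup (RayClassGroup 𝔪)} (hE : IsClassField E h𝔪 S H)
    (hL : IsClassField L h𝔪 S' H') : Nonempty (E →ₐ[K] L) ↔ H' ≤ H := by
  refine ⟨fun ⟨f⟩ γ hγ => ?_, fun hle => hL.exists_algHom fun v hv hmem =>
    (hE.artinAt_eq_one_iff v hv).2 (hle hmem)⟩
  obtain ⟨v, hv, -, rfl⟩ := exists_prime_in_class_avoiding h𝔪 γ Set.finite_empty
  exact (hE.artinAt_eq_one_iff v hv).1
    (artinAt_eq_one_of_algHom f (hE.unram v hv) ((hL.artinAt_eq_one_iff v hv).2 hγ))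

end embed

end FA.RayFields

end
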