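import Fermat.Agent.ClassFieldTheory.Conductor
import Fermat.Agent.PrincipalIdeal.Residue

/-!
# The norm limitation

In any finite extension the Frobenius elements restrict to the powers of the Artin symbol given by
the residue degrees, so the class field of the norms lies in the extension: the norms see only the
largest abelian subextension.
-/

set_option autoImplicit false
set_option linter.unusedSectionVars false
set_option linter.style.haveILetI false

noncomputable section

universe u

open NumberField IsDedekindDomain Finset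
open FA.Hecke (coprimeIdeals RayClassGroup rayClass rayClass_surjective)
open FA.Ext (primeIdeal)
open FA.Chebotarev (strictFrobSet)
open scoped Pointwise nonZeroDivisors Classical

namespace FA.RayFields

open FA.ArtinRec

section symbol

variable {K L : Type*} [Field K] [NumberField K] [Field L] [NumberField L] [Algebra K L]

/-- The norm of a prime is a power of the prime below. -/
theorem exists_relNorm_pow (P : HeightOneSpectrum (𝓞 L)) :
    ∃ f : ℕ, f ≠ 0 ∧ Ideal.relNorm (𝓞 K) P.asIdeal = (belowP K P).asIdeal ^ f := by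
  haveI := P.isMaximal
  haveI := (belowP K P).isMaximal
  haveI : P.asIdeal.LiesOver (belowP K P).asIdeal := ⟨rfl⟩
  refine ⟨_, fun h0 => ?_,
    Ideal.relNorm_eq_pow_of_isMaximal P.asIdeal (belowP K P).asIdeal⟩
  have h := congrArg Ideal.absNorm
    (Ideal.relNorm_eq_pow_of_isMaximal P.asIdeal (belowP K P).asIdeal)
  rw [h0, pow_zero, Ideal.one_eq_top, Ideal.absNorm_relNorm, Ideal.absNorm_top] at h
  exact P.isPrime.ne_top (Ideal.absNorm_eq_one_iff.1 h)

variable {E N : Type*} [Field E] [NumberField E] [Field N] [NumberField N] [Algebra K E]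
  [IsGalois K E] [IsMulCommutative (E ≃ₐ[K] E)] [Algebra K N] [Algebra L N] [IsScalarTower K L N]
  [IsGalois L N] [Algebra E N] [IsScalarTower K E N]

/-- **Frobenius elements restrict to the symbol of the norm.** -/
theorem restrict_frob_eq_pow {Q : HeightOneSpectrum (𝓞 N)} {g : N ≃ₐ[L] N}
    (hg : IsArithFrobAt (𝓞 L) g Q.asIdeal) {f : ℕ}
    (hf : Ideal.relNorm (𝓞 K) (belowP L Q).asIdeal = (belowP K (belowP L Q)).asIdeal ^ f)
    (hv : ¬ IsRam E (belowP K (belowP L Q))) :
    AlgEquiv.restrictNormalHom E (g.restrictScalars K) =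
      artinAt E (belowP K (belowP L Q)) ^ f := by
  set v := belowP K (belowP L Q)
  have hQE : belowP K (belowP E Q) = v :=
    HeightOneSpectrum.ext ((Ideal.under_under Q.asIdeal).trans (Ideal.under_under Q.asIdeal).symm)
  obtain ⟨τ, hτ⟩ := exists_frob (K := K) (belowP E Q)
  rw [← artinAt_eq hv hQE hτ]
  set r := AlgEquiv.restrictNormalHom E (g.restrictScalars K)
  have hcard : Nat.card (𝓞 L ⧸ (belowP L Q).asIdeal) =
      Nat.card (𝓞 K ⧸ (belowP K (belowP E Q)).asIdeal) ^ f := by
    have h := congrArg Ideal.absNorm hf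
    rw [Ideal.absNorm_relNorm, map_pow, Ideal.absNorm_apply, Submodule.cardQuot_apply,
      Ideal.absNorm_apply, Submodule.cardQuot_apply] at h
    rw [hQE]
    exact h
  have key : ∀ x : 𝓞 E, r • x - τ ^ f • x ∈ (belowP E Q).asIdeal := fun x => by
    have h1 : r • x - x ^ Nat.card (𝓞 L ⧸ (belowP L Q).asIdeal) ∈ (belowP E Q).asIdeal := by
      show r • x - _ ∈ Q.asIdeal.under (𝓞 E)
      rw [Ideal.mem_comap, map_sub, map_pow, show algebraMap (𝓞 E) (𝓞 N) (r • x) =
        g • algebraMap (𝓞 E) (𝓞 N) x from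
          RingOfIntegers.ext ((g.restrictScalars K).restrictNormal_commutes E (x : E))]
      exact hg _
    have h2 := FA.PrincipalIdeal.frob_pow_sub_mem hτ f x
    rw [← hcard] at h2
    simpa using Ideal.sub_mem _ h1 h2
  have hmem : r * (τ ^ f)⁻¹ ∈ (belowP E Q).asIdeal.inertia (E ≃ₐ[K] E) := fun y => by
    have h3 := key ((τ ^ f)⁻¹ • y)
    rw [smul_inv_smul, ← mul_smul] at h3
    exact h3
  rwa [inertia_eq_bot hv hQE, Subgroup.mem_bot, mul_inv_eq_one] at hmem

omit [Algebra E N] [IsScalarTower K E N] [Algebra K N] [Algebra L N] [IsScalarTower K L N] [IsGalois L N] in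
/-- The symbol kills the norms from an extension containing the field. -/
theorem artin_normPrime (i : E →ₐ[K] L) {𝔪 : Ideal (𝓞 K)} {h𝔪 : 𝔪 ≠ ⊥}
    {ω : RayClassGroup 𝔪 →* (E ≃ₐ[K] E)}
    (hω : ∀ (v : HeightOneSpectrum (𝓞 K)) (hv : v.asIdeal ⊔ 𝔪 = ⊤),
      ¬ IsRam E v ∧ ω (rayClass h𝔪 ⟨primeIdeal v, hv⟩) = artinAt E v) :
    normClasses L h𝔪 ≤ ω.ker := by
  letI : Algebra E L := i.toRingHom.toAlgebra
  haveI : IsScalarTower K E L := IsScalarTower.of_algebraMap_eq fun x => (i.commutes x).symm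
  rw [normClasses, Subgroup.closure_le]
  rintro _ ⟨P, hP, rfl⟩
  obtain ⟨f, hf0, hf⟩ := exists_relNorm_pow (K := K) P
  have hv : (belowP K P).asIdeal ⊔ 𝔪 = ⊤ := by
    refine (sup_eq_top_iff_not_le _ 𝔪).2 fun hle => ?_
    have h1 : (belowP K P).asIdeal ^ f ⊔ 𝔪 = ⊤ := hf ▸ hP
    exact (belowP K P).isPrime.ne_top
      (top_le_iff.1 (h1.symm.le.trans (sup_le (Ideal.pow_le_self hf0) hle)))
  obtain ⟨g, hg⟩ := exists_frob (K := L) (L := L) P
  rw [show g = 1 from AlgEquiv.ext fun x => g.commutes x] at hg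
  have hb : belowP L P = P := HeightOneSpectrum.ext (Ideal.comap_id P.asIdeal)
  have hr := restrict_frob_eq_pow (E := E) (N := L) (L := L) hg (f := f)
    (by rw [hb]; exact hf) (by rw [hb]; exact (hω _ hv).1)
  rw [hb, show (1 : L ≃ₐ[L] L).restrictScalars K = 1 from AlgEquiv.ext fun _ => rfl, map_one] at hr
  rw [SetLike.mem_coe, MonoidHom.mem_ker, show (⟨normPrime K P, hP⟩ : coprimeIdeals 𝔪) =
    ⟨primeIdeal (belowP K P), hv⟩ ^ f from Subtype.ext (Subtype.ext hf), map_pow, map_pow,
    (hω _ hv).2, hr]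

end symbol

variable {K : Type u} [Field K] [NumberField K] (L : Type*) [Field L] [NumberField L]
  [Algebra K L]

/-- The class field of the norms lies in the extension. -/
theorem nonempty_algHom_normClasses {E : Type*} [Field E] [NumberField E] [Algebra K E]
    [IsGalois K E] [IsMulCommutative (E ≃ₐ[K] E)] {𝔪 : Ideal (𝓞 K)} {h𝔪 : 𝔪 ≠ ⊥}
    {S : Set (InfinitePlace K)} (hE : IsClassField E h𝔪 S (normClasses L h𝔪)) :
    Nonempty (E →ₐ[K] L) := by
  let e : E →ₐ[K] AlgebraicClosure L := IsAlgClosed.lift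
  let b := Module.finBasis K E
  let N₀ : IntermediateField L (AlgebraicClosure L) :=
    IntermediateField.adjoin L (Set.range fun i => e (b i))
  haveI : FiniteDimensional L N₀ := by
    haveI : Finite (Set.range fun i => e (b i) : Set (AlgebraicClosure L)) :=
      Set.finite_range _ |>.to_subtype
    exact IntermediateField.finiteDimensional_adjoin fun x _ =>
      (AlgebraicClosure.isAlgebraic L).isAlgebraic x |>.isIntegral
  let N : IntermediateField L (AlgebraicClosure L) :=
    IntermediateField.normalClosure L N₀ (AlgebraicClosure L)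
  haveI : NumberField N := NumberField.of_module_finite L N
  haveI : Normal L N := normalClosure.normal L N₀ (AlgebraicClosure L)
  haveI : IsGalois L N := ⟨⟩
  have hmemN : ∀ x, e x ∈ N.restrictScalars K := fun x => by
    rw [← b.sum_repr x, map_sum]
    exact (N.restrictScalars K).sum_mem fun i _ => by
      rw [Algebra.smul_def, map_mul, e.commutes]
      exact (N.restrictScalars K).mul_mem ((N.restrictScalars K).algebraMap_mem _)
        (N₀.le_normalClosure (IntermediateField.subset_adjoin L _ ⟨i, rfl⟩))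
  let j : E →ₐ[K] N :=
    { toFun := fun x => ⟨e x, hmemN x⟩
      map_one' := Subtype.ext (map_one e)
      map_mul' := fun x y => Subtype.ext (map_mul e x y)
      map_zero' := Subtype.ext (map_zero e)
      map_add' := fun x y => Subtype.ext (map_add e x y)
      commutes' := fun r => Subtype.ext (e.commutes r) }
  letI : Algebra E N := j.toRingHom.toAlgebra
  haveI : IsScalarTower K E N := IsScalarTower.of_algebraMap_eq fun x => (j.commutes x).symm
  obtain ⟨ω, -, hker, hω⟩ := hE.artin
  set r : (N ≃ₐ[L] N) →* (E ≃ₐ[K] E) :=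
    { toFun := fun g => AlgEquiv.restrictNormalHom E (g.restrictScalars K)
      map_one' := map_one (AlgEquiv.restrictNormalHom E)
      map_mul' := fun g h => (congrArg (AlgEquiv.restrictNormalHom E)
        (AlgEquiv.ext fun _ => rfl :
          (g * h).restrictScalars K = g.restrictScalars K * h.restrictScalars K)).trans
          (map_mul (AlgEquiv.restrictNormalHom E) _ _) } with hr
  have htriv : ∀ g, r g = 1 := fun g => by
    have hC : ∀ h ∈ {h : N ≃ₐ[L] N | IsConj g h}, ∀ x, x * h * x⁻¹ ∈ {h | IsConj g h} :=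
      fun h hh x => hh.trans (isConj_iff.2 ⟨x, rfl⟩)
    have hm := FA.NaturalChebotarev.hasMean_strictFrobSet _ hC
    have hne : Nat.card {h : N ≃ₐ[L] N | IsConj g h} ≠ 0 := by
      haveI : Nonempty {h : N ≃ₐ[L] N | IsConj g h} := ⟨⟨g, IsConj.refl g⟩⟩
      exact Nat.card_pos.ne'
    have hinf := infinite_of_hasMean
      (div_ne_zero (Nat.cast_ne_zero.2 hne) (Nat.cast_ne_zero.2 Nat.card_pos.ne')) hm
    obtain ⟨P, hP, hPm⟩ := (hinf.sdiff (Ideal.finite_factors
      (show 𝔪.map (algebraMap (𝓞 K) (𝓞 L)) ≠ ⊥ from Ideal.map_ne_bot_of_ne_bot h𝔪))).nonempty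
    have hv : (belowP K P).asIdeal ⊔ 𝔪 = ⊤ := (sup_eq_top_iff_not_le _ 𝔪).2 fun hle =>
      hPm (Ideal.dvd_iff_le.2 (Ideal.map_le_iff_le_comap.2 hle))
    obtain ⟨f, hf0, hf⟩ := exists_relNorm_pow (K := K) P
    have hP' : normPrime K P ∈ coprimeIdeals 𝔪 := by
      show Ideal.relNorm (𝓞 K) P.asIdeal ⊔ 𝔪 = ⊤
      rw [hf]
      exact Ideal.pow_sup_eq_top hv
    obtain ⟨Q, rfl⟩ := exists_belowP L N P
    obtain ⟨σ, hσ⟩ := exists_frob (K := L) Q
    have hconj : IsConj g σ := hP Q.asIdeal Q.isMaximal rfl σ hσ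
    have h1 : r σ = 1 := by
      refine (restrict_frob_eq_pow hσ hf (hE.unram _ hv)).trans ?_
      have h2 : rayClass h𝔪 ⟨normPrime K (belowP L Q), hP'⟩ ∈ ω.ker :=
        hker ▸ rayClass_normPrime_mem h𝔪 _ hP'
      rwa [MonoidHom.mem_ker, show (⟨normPrime K (belowP L Q), hP'⟩ : coprimeIdeals 𝔪) =
        ⟨primeIdeal (belowP K (belowP L Q)), hv⟩ ^ f from Subtype.ext (Subtype.ext hf), map_pow,
        map_pow, hω, artinHom_prime] at h2
    obtain ⟨c, hc⟩ := isConj_iff.1 hconj
    rw [← hc, map_mul, map_mul, map_inv, mul_assoc, mul_comm' (r g), ← mul_assoc, mul_inv_cancel,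
      one_mul] at h1
    exact h1
  let i : L →ₐ[K] N := IsScalarTower.toAlgHom K L N
  have hmem : ∀ x, j x ∈ i.range := fun x => by
    have hfix : ∀ g : N ≃ₐ[L] N, g (j x) = j x := fun g => by
      have h1 := (g.restrictScalars K).restrictNormal_commutes E x
      rw [show (g.restrictScalars K).restrictNormal E = 1 from htriv g] at h1
      exact h1.symm
    obtain ⟨y, hy⟩ := IntermediateField.mem_bot.1 ((IsGalois.mem_bot_iff_fixed _).2 hfix)
    exact ⟨y, hy⟩
  exact ⟨(AlgEquiv.ofInjective i i.toRingHom.injective).symm.toAlgHom.comp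
    (j.codRestrict i.range hmem)⟩

/-- **The norm limitation theorem.** -/
theorem exists_normLimit {𝔪 : Ideal (𝓞 K)} (h𝔪 : 𝔪 ≠ ⊥) :
    ∃ (E : Type u) (_ : Field E) (_ : NumberField E) (_ : Algebra K E) (_ : IsGalois K E)
      (_ : IsMulCommutative (E ≃ₐ[K] E)), IsClassField E h𝔪 Set.univ (normClasses L h𝔪) ∧
      Nonempty (E →ₐ[K] L) ∧ Module.finrank K E = (normClasses L h𝔪).index ∧
      (normClasses L h𝔪).index ∣ Module.finrank K L := by
  obtain ⟨E, _, _, _, _, hc, hE⟩ :=
    exists_classField h𝔪 Set.univ (normClasses L h𝔪) (by rw [semiClasses_univ]; exact bot_le)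
  obtain ⟨i⟩ := nonempty_algHom_normClasses L hE
  have hdeg : Module.finrank K E = (normClasses L h𝔪).index := by
    rw [← IsGalois.card_aut_eq_finrank, hE.card_eq]
  refine ⟨E, inferInstance, inferInstance, inferInstance, inferInstance, hc, hE, ⟨i⟩, hdeg, ?_⟩
  letI : Algebra E L := i.toRingHom.toAlgebra
  haveI : IsScalarTower K E L := IsScalarTower.of_algebraMap_eq fun x => (i.commutes x).symm
  exact hdeg ▸ Dvd.intro _ (Module.finrank_mul_finrank K E L)

variable {L}
variable {A : Type*} [Field A] [NumberField A] [Algebra K A] [IsGalois K A]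
  [IsMulCommutative (A ≃ₐ[K] A)]

theorem normClasses_le_of_classField {𝔪 : Ideal (𝓞 K)} {h𝔪 : 𝔪 ≠ ⊥} {S : Set (InfinitePlace K)}
    {H : Subgroup (RayClassGroup 𝔪)} (hA : IsClassField A h𝔪 S H) (i : A →ₐ[K] L) :
    normClasses L h𝔪 ≤ H := by
  obtain ⟨ω, -, hker, hω⟩ := hA.artin
  exact hker ▸ artin_normPrime i fun v hv =>
    ⟨hA.unram v hv, (hω _).trans (artinHom_prime v)⟩

/-- **The kernel of the symbol is the group of norms, for every modulus.** -/
theorem classField_eq_normClasses {𝔪 : Ideal (𝓞 K)} {h𝔪 : 𝔪 ≠ ⊥} {S : Set (InfinitePlace K)}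
    {H : Subgroup (RayClassGroup 𝔪)} (hA : IsClassField A h𝔪 S H) : H = normClasses A h𝔪 := by
  obtain ⟨E, _, _, _, _, _, hE, ⟨i⟩, -⟩ := exists_normLimit A h𝔪
  exact le_antisymm ((nonempty_algHom_iff hE hA).1 ⟨i⟩) (normClasses_le_of_classField hA (AlgHom.id K A))

/-- **The norms see only the largest abelian subextension.** -/
theorem normClasses_eq_of_maximal {𝔪 : Ideal (𝓞 K)} (hA : IsModulus A 𝔪) (i : A →ₐ[K] L)
    (hmax : ∀ (B : Type u) [Field B] [NumberField B] [Algebra K B] [IsGalois K B]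
      [IsMulCommutative (B ≃ₐ[K] B)], (B →ₐ[K] L) → Nonempty (B →ₐ[K] A)) :
    normClasses L hA.ne_bot = normClasses A hA.ne_bot := by
  obtain ⟨H, hH⟩ := hA.exists_classField
  obtain ⟨E, _, _, _, _, _, hE, ⟨j⟩, -⟩ := exists_normLimit L hA.ne_bot
  rw [← classField_eq_normClasses hH]
  exact le_antisymm (normClasses_le_of_classField hH i) ((nonempty_algHom_iff hE hH).1 (hmax E j))

end FA.RayFields

end
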